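import Fermat.Agent.BrauerFeit.Blocks
import Fermat.Agent.PrincipalBlock.SecondMain

/-!
# The Brauer correspondence for the centraliser of a `p`-element

Restricting the coefficients of class functions to `C = C(u)` is multiplicative modulo the place, so
each character of `C` singles out one block of `G`.
-/

set_option autoImplicit false
set_option linter.style.haveILetI false

noncomputable section

open Finset FA.CharacterTheory FA.FrobeniusGroups FA.Thompson FA.PrincipalBlock
open FA.BrauerFeit (red blk_eq mem_blk_self coeff_toAlg r_omega_congr r_omega_eq_zero)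
open scoped Classical

namespace FA.SecondMainTheorem

variable {G : Type*} [Group G] [Fintype G] {p : ℕ} [hp : Fact p.Prime] {v : Place p}

/-- Restriction of the coefficients. -/
def resC (C : Subgroup G) (f : G → ℂ) : C → ℂ := fun c => f c

omit hp [Fintype G] in
theorem isCen_resC {C : Subgroup G} {f : G → ℂ} (hf : IsCen v f) : IsCen v (resC C f) :=
  ⟨fun g x => hf.cls g x,
    fun c => hf.mem c⟩

/-- The reduced central character of the restriction. -/
def lam (v : Place p) {C : Subgroup G} (ψ : C → ℂ) (f : G → ℂ) : v.k := v.r (omega ψ (resC C f))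

variable (v) in
/-- The characters of `C` whose block corresponds to the block of `χ₀`. -/
def corr (C : Subgroup G) (χ₀ : G → ℂ) : Finset (C → ℂ) :=
  (irr C).filter fun ψ => ∀ f, IsCen v f → lam v ψ f = v.r (omega χ₀ f)

variable {u : G} (hu : PEl p u) (C : Subgroup G) (hC : ∀ g, g ∈ C ↔ g * u = u * g)

omit hp [Fintype G] in
include hu in
theorem isPGroup_zpowers : IsPGroup p (Subgroup.zpowers u) := by
  obtain ⟨k, hk⟩ := hu
  rintro ⟨x, hx⟩
  obtain ⟨i, rfl⟩ := Subgroup.mem_zpowers_iff.1 hx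
  exact ⟨k, Subtype.ext (by
    rw [Subgroup.coe_pow, ← zpow_natCast, zpow_comm, zpow_natCast, hk, one_zpow]; rfl)⟩

omit hp [Fintype G] in
include hC in
theorem mem_centralizer_zpowers (g : G) :
    g ∈ Subgroup.centralizer (Subgroup.zpowers u : Set G) ↔ g ∈ C := by
  rw [hC, Subgroup.mem_centralizer_iff]
  refine ⟨fun h => (h u (Subgroup.mem_zpowers u)).symm, fun h x hx => ?_⟩
  obtain ⟨i, rfl⟩ := Subgroup.mem_zpowers_iff.1 hx
  exact (Commute.zpow_left (show Commute u g from h.symm) i).eq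

include hu hC

/-- **Restriction to the centraliser is multiplicative** modulo the place. -/
theorem r_conv_res {f f' : G → ℂ} (hf : IsCen v f) (hf' : IsCen v f') (c : C) :
    v.r (conv f f' c) = v.r (conv (resC C f) (resC C f') c) := by
  have hZ : ∀ {h : G → ℂ}, IsCen v h →
      DefectGroups.Fixed (Subgroup.zpowers u) (toAlg v h) := fun h =>
    DefectGroups.fixed_of_class (DefectGroups.mem_Z_iff.1 (BrauerFeit.toAlg_mem_Z h.cls)) _
  rw [← coeff_toAlg, toAlg_conv hf.mem hf'.mem, DefectGroups.coeff_mul_centralizer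
    (isPGroup_zpowers hu) (hZ hf) (hZ hf') ((mem_centralizer_zpowers C hC c).2 c.2)]
  simp only [coeff_toAlg, mem_centralizer_zpowers C hC, conv, resC]
  rw [v.r_sum _ fun h _ => mul_mem (hf.mem _) (hf'.mem _), sum_subtype _ (p := (· ∈ C)) (by simp)]
  exact sum_congr rfl fun h _ => by
    rw [v.r_mul (hf.mem _) (hf'.mem _)]
    rfl

theorem lam_conv {f f' : G → ℂ} (hf : IsCen v f) (hf' : IsCen v f') {ψ : C → ℂ}
    (hψ : ψ ∈ irr C) : lam v ψ (conv f f') = lam v ψ f * lam v ψ f' := by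
  have h1 := isCen_resC (C := C) hf
  have h2 := isCen_resC (C := C) hf'
  simp only [lam]
  rw [← v.r_mul (h1.omega_mem hψ) (h2.omega_mem hψ), ← omega_conv hψ h2.cls]
  refine r_omega_congr (isCen_resC (hf.conv hf')) (h1.conv h2) ?_ hψ
  refine DefectGroups.ext_coeff fun c => ?_
  rw [coeff_toAlg, coeff_toAlg]
  exact r_conv_res hu C hC hf hf' c

omit hu hC
omit hp

theorem lam_dlt {ψ : C → ℂ} (hψ : ψ ∈ irr C) : lam v ψ (dlt (1 : G)) = 1 := by
  rw [lam, show resC C (dlt (1 : G)) = dlt 1 from funext fun c => by simp [resC, dlt],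
    omega_dlt hψ, v.r_one]

theorem lam_sub {f f' : G → ℂ} (hf : IsCen v f) (hf' : IsCen v f') {ψ : C → ℂ} (hψ : ψ ∈ irr C) :
    lam v ψ (f - f') = lam v ψ f - lam v ψ f' := by
  simp only [lam]
  rw [← v.r_sub ((isCen_resC hf).omega_mem hψ) ((isCen_resC hf').omega_mem hψ), ← omega_sub]
  rfl

theorem lam_smul {a : ℂ} (ha : a ∈ v.O) {f : G → ℂ} (hf : IsCen v f) {ψ : C → ℂ}
    (hψ : ψ ∈ irr C) : lam v ψ (a • f) = v.r a * lam v ψ f := by
  simp only [lam]
  rw [← v.r_mul ha ((isCen_resC hf).omega_mem hψ), ← omega_smul]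
  rfl

include hu hC in
/-- A character of `C` with nonzero value at a block idempotent corresponds to the block. -/
theorem mem_corr_of_lam_ne [Fact p.Prime] {χ₀ : G → ℂ} {ψ : C → ℂ}
    (hψ : ψ ∈ irr C) (h : lam v ψ (aS (blk v χ₀)) ≠ 0) : ψ ∈ corr v C χ₀ := by
  refine mem_filter.2 ⟨hψ, fun f hf => ?_⟩
  have hS := good_blk v χ₀
  have key : ∀ T, T ⊆ blk v χ₀ → ∃ e, IsCen v e ∧ (∀ χ ∈ T, omega χ e = 0) ∧
      (∀ χ ∈ irr G, χ ∉ blk v χ₀ → omega χ e = 0) ∧
      lam v ψ e = (lam v ψ f - v.r (omega χ₀ f)) ^ T.card * lam v ψ (aS (blk v χ₀)) := by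
    intro T
    induction T using Finset.induction_on with
    | empty => exact fun _ => ⟨_, hS.cen, by simp, fun χ hχ hn => by
        rw [omega_aS hS.sub hχ, if_neg hn], by simp⟩
    | insert χ T hχT ih =>
      intro hT
      obtain ⟨e, hec, he0, he1, hel⟩ := ih fun x hx => hT (mem_insert_of_mem hx)
      have hχ := hT (mem_insert_self χ T)
      have hχi := hS.sub hχ
      have hw := hf.omega_mem hχi
      have hd : IsCen v (f - omega χ f • dlt 1) := hf.sub (IsCen.dlt.smul hw)
      refine ⟨conv e (f - omega χ f • dlt 1), hec.conv hd, fun x hx => ?_, fun x hx hn => ?_, ?_⟩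
      · have hxi := hS.sub (hT hx)
        rw [omega_conv hxi hd.cls]
        rcases mem_insert.1 hx with rfl | hx
        · rw [omega_sub, omega_smul, omega_dlt hxi, mul_one, sub_self, mul_zero]
        · rw [he0 x hx, zero_mul]
      · rw [omega_conv hx hd.cls, he1 x hx hn, zero_mul]
      · rw [lam_conv hu C hC hec hd hψ, hel, lam_sub C hf (IsCen.dlt.smul hw) hψ,
          lam_smul C hw IsCen.dlt hψ, lam_dlt C hψ, mul_one, ← (mem_filter.1 hχ).2 f hf,
          card_insert_of_notMem hχT, pow_succ]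
        ring
  obtain ⟨e, hec, he0, he1, hel⟩ := key _ subset_rfl
  have hz : e = 0 := eq_of_omega hec.cls (fun _ _ => rfl) fun χ hχ => by
    rw [show omega χ (0 : G → ℂ) = 0 by simp [omega]]
    by_cases hm : χ ∈ blk v χ₀
    · exact he0 χ hm
    · exact he1 χ hχ hm
  rw [hz, show lam v ψ (0 : G → ℂ) = 0 by simp [lam, resC, omega, v.r_zero], eq_comm,
    mul_eq_zero, or_iff_left h] at hel
  exact sub_eq_zero.1 (pow_eq_zero_iff'.1 hel).1

theorem lam_aS_of_mem {χ₀ : G → ℂ} (hχ₀ : χ₀ ∈ irr G) {ψ : C → ℂ} (hψ : ψ ∈ corr v C χ₀) :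
    lam v ψ (aS (blk v χ₀)) = 1 := by
  rw [(mem_filter.1 hψ).2 _ (good_blk v χ₀).cen, omega_aS (blk_subset v χ₀) hχ₀,
    if_pos (mem_blk_self hχ₀), v.r_one]

/-- The idempotent of a disjoint union. -/
theorem aS_biUnion {H : Type*} [Group H] [Fintype H] (B : Finset (Finset (H → ℂ)))
    (hB : (B : Set (Finset (H → ℂ))).PairwiseDisjoint id) :
    aS (B.biUnion id) = ∑ S ∈ B, aS S := funext fun g => by
  simp only [aS, coef, Finset.sum_apply, ← mul_sum]
  rw [sum_biUnion hB]
  rfl

theorem pairwiseDisjoint_blk {H : Type*} [Group H] [Fintype H] (T : Finset (H → ℂ)) :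
    ((T.image (blk v) : Finset (Finset (H → ℂ))) : Set (Finset (H → ℂ))).PairwiseDisjoint id := by
  intro a ha b hb hne
  obtain ⟨x, -, rfl⟩ := mem_image.1 ha
  obtain ⟨y, -, rfl⟩ := mem_image.1 hb
  exact disjoint_left.2 fun z hz hz' => hne ((blk_eq hz).symm.trans (blk_eq hz'))

theorem aS_irr {H : Type*} [Group H] [Fintype H] : aS (irr H) = dlt 1 := by
  have h := aS_compl (G := H) (S := ∅) (empty_subset _)
  rw [sdiff_empty] at h
  rw [h]
  funext g
  simp [aS, coef]

include hu hC in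
/-- **The Brauer correspondence**: a block of `G` for every character of `C`, and only one. -/
theorem exists_unique_blk [Fact p.Prime] {ψ : C → ℂ} (hψ : ψ ∈ irr C) :
    ∃ χ ∈ irr G, ψ ∈ corr v C χ ∧ ∀ χ' ∈ irr G, ψ ∈ corr v C χ' → blk v χ' = blk v χ := by
  obtain ⟨χ, hχ, hne⟩ : ∃ χ ∈ irr G, lam v ψ (aS (blk v χ)) ≠ 0 := by
    by_contra! h
    have hU : ((irr G).image (blk v)).biUnion id = irr G := by
      refine subset_antisymm (biUnion_subset.2 fun S hS => ?_) fun χ hχ =>
        mem_biUnion.2 ⟨_, mem_image_of_mem _ hχ, mem_blk_self hχ⟩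
      obtain ⟨x, -, rfl⟩ := mem_image.1 hS
      exact blk_subset v x
    have h1 := lam_dlt (v := v) C hψ
    rw [← aS_irr, ← hU, aS_biUnion _ (pairwiseDisjoint_blk _)] at h1
    have h2 : lam v ψ (∑ S ∈ (irr G).image (blk v), aS S) = 0 := by
      have hsum : omega ψ (resC C (∑ S ∈ (irr G).image (blk v), aS S)) =
          ∑ S ∈ (irr G).image (blk v), omega ψ (resC C (aS S)) := by
        simp only [omega, resC, Finset.sum_apply, sum_mul, mul_sum]
        rw [sum_comm]
      have hm : ∀ S ∈ (irr G).image (blk v), omega ψ (resC C (aS S)) ∈ v.O := fun S hS => by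
        obtain ⟨x, -, rfl⟩ := mem_image.1 hS
        exact (isCen_resC (isCen_aS_blk v)).omega_mem hψ
      rw [lam, hsum, v.r_sum _ hm]
      refine sum_eq_zero fun S hS => ?_
      obtain ⟨x, hx, rfl⟩ := mem_image.1 hS
      exact h x hx
    exact one_ne_zero (h1.symm.trans h2)
  refine ⟨χ, hχ, mem_corr_of_lam_ne hu C hC hψ hne, fun χ' hχ' h' => ?_⟩
  refine (blk_eq (mem_filter.2 ⟨hχ', fun f hf => ?_⟩))
  exact ((mem_filter.1 (mem_corr_of_lam_ne hu C hC hψ hne)).2 f hf).symm.trans
    ((mem_filter.1 h').2 f hf)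

theorem corr_eq_of_blk {χ χ' : G → ℂ} (h : χ' ∈ blk v χ) : corr v C χ' = corr v C χ :=
  filter_congr fun _ _ => ⟨fun h' f hf => (h' f hf).trans ((mem_filter.1 h).2 f hf).symm,
    fun h' f hf => (h' f hf).trans ((mem_filter.1 h).2 f hf)⟩

/-- The corresponding characters form blocks. -/
theorem blk_subset_corr {χ₀ : G → ℂ} {ψ : C → ℂ} (hψ : ψ ∈ corr v C χ₀) :
    blk v ψ ⊆ corr v C χ₀ := fun φ hφ => by
  refine mem_filter.2 ⟨blk_subset v ψ hφ, fun f hf => ?_⟩
  rw [lam, ← (mem_filter.1 hφ).2 _ (isCen_resC hf)]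
  exact (mem_filter.1 hψ).2 f hf

theorem good_corr (χ₀ : G → ℂ) : Good v (corr v C χ₀) := by
  refine ⟨filter_subset _ _, ?_⟩
  have hU : ((corr v C χ₀).image (blk v)).biUnion id = corr v C χ₀ := by
    refine subset_antisymm (biUnion_subset.2 fun S hS => ?_) fun ψ hψ =>
      mem_biUnion.2 ⟨_, mem_image_of_mem _ hψ, mem_blk_self (mem_filter.1 hψ).1⟩
    obtain ⟨x, hx, rfl⟩ := mem_image.1 hS
    exact blk_subset_corr C hx
  rw [← hU, aS_biUnion _ (pairwiseDisjoint_blk _)]
  refine ⟨fun g x => ?_, fun g => ?_⟩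
  · simp only [Finset.sum_apply]
    refine sum_congr rfl fun S hS => ?_
    obtain ⟨y, -, rfl⟩ := mem_image.1 hS
    exact (isCen_aS_blk v).cls g x
  · rw [Finset.sum_apply]
    refine sum_mem fun S hS => ?_
    obtain ⟨y, -, rfl⟩ := mem_image.1 hS
    exact (isCen_aS_blk v).mem g

include hu hC in
/-- **The Brauer image of a block idempotent** is the idempotent of the corresponding characters. -/
theorem r_aS_corr [Fact p.Prime] {χ₀ : G → ℂ} (hχ₀ : χ₀ ∈ irr G) (c : C) :
    v.r (aS (blk v χ₀) c) = v.r (aS (corr v C χ₀) c) := by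
  have hT := good_corr (v := v) C χ₀
  have hS := (good_blk v χ₀).cen
  have hR := isCen_resC (C := C) hS
  set e := toAlg v (resC C (aS (blk v χ₀))) with he
  set f := toAlg v (aS (corr v C χ₀)) with hf
  have hee : e * e = e := by
    rw [he, ← toAlg_conv hR.mem hR.mem]
    refine DefectGroups.ext_coeff fun x => ?_
    rw [coeff_toAlg, coeff_toAlg, ← r_conv_res hu C hC hS hS, conv_aS_self (blk_subset v χ₀)]
    rfl
  have hff : f * f = f := by rw [hf, ← toAlg_conv hT.cen.mem hT.cen.mem, conv_aS_self hT.sub]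
  have hcm : e * f = f * e :=
    (Subalgebra.mem_center_iff.1 (BrauerFeit.toAlg_mem_Z hR.cls) f).symm
  have hd : toAlg v (resC C (aS (blk v χ₀)) - aS (corr v C χ₀)) = e - f := by
    refine DefectGroups.ext_coeff fun g => ?_
    rw [MonoidAlgebra.coeff_sub, Finsupp.sub_apply, he, hf, coeff_toAlg, coeff_toAlg, coeff_toAlg,
      Pi.sub_apply, v.r_sub (hR.mem g) (hT.cen.mem g)]
  have hn : IsNilpotent (e - f) := hd ▸ isNilpotent_toAlg (hR.sub hT.cen) fun ψ hψ => by
    rw [omega_sub, v.r_sub (hR.omega_mem hψ) (hT.cen.omega_mem hψ), omega_aS hT.sub hψ]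
    change lam v ψ (aS (blk v χ₀)) - _ = _
    split_ifs with hm
    · rw [lam_aS_of_mem C hχ₀ hm, v.r_one, sub_self]
    · rw [v.r_zero, sub_zero]
      exact not_not.1 fun hne => hm (mem_corr_of_lam_ne hu C hC hψ hne)
  have h3 : (e - f) ^ 3 = e - f := by
    have h1 : e * (e * f) = e * f := by rw [← mul_assoc, hee]
    have h2 : f * (e * f) = e * f := by rw [hcm, ← mul_assoc, hff]
    rw [pow_succ, pow_two]
    simp only [sub_mul, mul_sub, mul_assoc, hee, hff, ← hcm, h1]
    abel
  obtain ⟨n, hn⟩ := hn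
  have h0 : ∀ m, (e - f) ^ (2 * m + 1) = e - f := fun m => by
    induction m with
    | zero => simp
    | succ m ih =>
      rw [show 2 * (m + 1) + 1 = 2 * m + 1 + 2 by ring, pow_add, ih, ← pow_succ', h3]
  have hz : e - f = 0 := by
    rw [← h0 n, show 2 * n + 1 = n + (n + 1) by ring, pow_add, hn, zero_mul]
  have := congrArg (fun z : MonoidAlgebra v.k C => z.coeff c) (sub_eq_zero.1 hz)
  simpa [he, hf, coeff_toAlg, resC] using this

end FA.SecondMainTheorem

end
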