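import Fermat.Agent.SecondMainTheorem.Correspondence
import Fermat.Agent.BrauerFeit.Contributions
import Fermat.Agent.DefectGroups.FirstMain

/-!
# Brauer's second main theorem and its consequences
-/

set_option autoImplicit false
set_option linter.style.haveILetI false

noncomputable section

open Finset FA.CharacterTheory FA.FrobeniusGroups FA.Thompson FA.PrincipalBlock
open FA.SuzukiCA (mult mult_spec res)
open FA.BrauerFeit (red coeff_toAlg contr cut_eq_sum contr_eq mem_blk_self)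
open scoped Classical

namespace FA.SecondMainTheorem

variable {G : Type*} [Group G] [Fintype G] {p : ℕ} [hp : Fact p.Prime] {v : Place p}

variable {u : G} (hu : PEl p u) (C : Subgroup G) (hC : ∀ g, g ∈ C ↔ g * u = u * g)

omit hp in
theorem res_eq {χ : G → ℂ} (hχ : χ ∈ irr G) (y : C) :
    χ (y : G) = ∑ ψ ∈ irr C, (mult C χ ψ : ℂ) * ψ y := by
  rw [show χ (y : G) = res C χ y from rfl, expansion (f := res C χ) (fun g x => ?_) y]
  · exact sum_congr rfl fun ψ hψ => by rw [pairing_comm, mult_spec hχ hψ]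
  · show χ ((g * x * g⁻¹ : C) : G) = χ x
    push_cast
    exact irr_conj hχ _ _

include hu hC

/-- The two halves of the second main theorem. -/
theorem sum_aS_corr {χ₀ : G → ℂ} (hχ₀ : χ₀ ∈ irr G) {χ : G → ℂ} (hχ : χ ∈ irr G) {s : C}
    (hs : Reg p s) :
    ∑ c : C, aS (corr v C χ₀) c * χ (u * s * c) = if χ ∈ blk v χ₀ then χ (u * s) else 0 := by
  have hG := good_blk v χ₀
  have hT := good_corr (v := v) C χ₀
  split_ifs with hB
  · have h0 : ∑ c : C, aS (irr C \ corr v C χ₀) c * χ (u * s * c) = 0 := by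
      refine sum_aS_eq_zero hu C hC hG hT.compl (fun c => ?_) s.2 (reg_coe.2 hs) hB
      rw [r_conv_congr (fun h => hG.cen.mem _) hT.cen.mem hT.compl.cen.mem
          (fun h => r_aS_corr hu C hC hχ₀ h),
        conv_aS_eq_zero hT.sub sdiff_subset disjoint_sdiff, Pi.zero_apply, v.r_zero]
    simp only [aS_compl hT.sub, Pi.sub_apply, sub_mul, sum_sub_distrib, sub_eq_zero] at h0
    rw [← h0]
    simp [dlt]
  · refine sum_aS_eq_zero hu C hC hG.compl hT (fun c => ?_) s.2 (reg_coe.2 hs)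
      (mem_sdiff.2 ⟨hχ, hB⟩)
    rw [r_conv_congr (fun h => hG.compl.cen.mem _) hT.compl.cen.mem hT.cen.mem (fun h => ?_),
      conv_aS_eq_zero sdiff_subset hT.sub sdiff_disjoint, Pi.zero_apply, v.r_zero]
    rw [aS_compl hG.sub, aS_compl hT.sub, Pi.sub_apply, Pi.sub_apply,
      v.r_sub (dlt_mem 1 _) (hG.cen.mem _), v.r_sub (dlt_mem 1 _) (hT.cen.mem _),
      r_aS_corr hu C hC hχ₀ h]
    congr 2
    simp [dlt]

/-- **Brauer's second main theorem.** -/
theorem second_main {χ₀ : G → ℂ} (hχ₀ : χ₀ ∈ irr G) {χ : G → ℂ} (hχ : χ ∈ irr G) {s : C}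
    (hs : Reg p s) :
    ∑ ψ ∈ corr v C χ₀, (mult C χ ψ : ℂ) * ψ (⟨u, (hC u).2 rfl⟩ * s) =
      if χ ∈ blk v χ₀ then χ (u * s) else 0 := by
  rw [← sum_aS_mul_res (good_corr (v := v) C χ₀).sub hχ, ← sum_aS_corr hu C hC hχ₀ hχ hs]
  exact sum_congr rfl fun c _ => by push_cast; rfl

omit hp in
omit hu in
theorem irr_central {ψ : C → ℂ} (hψ : ψ ∈ irr C) (s : C) :
    ψ (⟨u, (hC u).2 rfl⟩ * s) = (ψ 1)⁻¹ * ψ ⟨u, (hC u).2 rfl⟩ * ψ s := by
  set z : C := ⟨u, (hC u).2 rfl⟩
  have h := FA.GlaubermanCorrespondence.card_mul_mul hψ s z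
  have hz : ∀ g : C, g * z * g⁻¹ = z := fun g => Subtype.ext (by
    push_cast
    rw [show (g : G) * u = u * g from (hC g).1 g.2, mul_inv_cancel_right])
  simp only [hz, sum_const, card_univ, nsmul_eq_mul, ← Nat.card_eq_fintype_card] at h
  have hzs : s * z = z * s := by
    have := hz s
    rwa [mul_inv_eq_iff_eq_mul] at this
  rw [hzs] at h
  rw [mul_assoc, eq_inv_mul_iff_mul_eq₀ (irr_one_ne_zero hψ)]
  refine mul_left_cancel₀ (Nat.cast_ne_zero.2 (Nat.card_pos (α := C)).ne' :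
    (Nat.card C : ℂ) ≠ 0) ?_
  linear_combination -h

/-- The values on `u C'` by the regular elements only. -/
theorem eq_regular_sum {χ₀ : G → ℂ} (hχ₀ : χ₀ ∈ irr G) {χ : G → ℂ} (hχ : χ ∈ irr G) {s : C}
    (hs : Reg p s) : (if χ ∈ blk v χ₀ then χ (u * s) else 0) =
      ∑ c ∈ univ.filter (fun c : C => Reg p c),
        ((Nat.card C : ℂ)⁻¹ * ∑ φ ∈ corr v C χ₀, φ s * φ c⁻¹) * χ (u * c) := by
  set z : C := ⟨u, (hC u).2 rfl⟩
  have hT := good_corr (v := v) C χ₀
  have hproj : ∀ ψ ∈ irr C, ∑ c ∈ univ.filter (fun c : C => Reg p c),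
      ((Nat.card C : ℂ)⁻¹ * ∑ φ ∈ corr v C χ₀, φ s * φ c⁻¹) * ψ c =
        if ψ ∈ corr v C χ₀ then ψ s else 0 := fun ψ hψ => by
    have h : ∑ c ∈ univ.filter (fun c : C => Reg p c),
        ((Nat.card C : ℂ)⁻¹ * ∑ φ ∈ corr v C χ₀, φ s * φ c⁻¹) * ψ c =
          ∑ φ ∈ corr v C χ₀, contr p ψ φ * φ s := by
      simp only [contr_eq, mul_sum, sum_mul]
      rw [sum_comm]
      exact sum_congr rfl fun φ _ => sum_congr rfl fun c _ => by ring
    rw [h]
    split_ifs with hm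
    · rw [← cut_eq_sum hT hm, indR, if_pos hs, one_mul]
    · exact sum_eq_zero fun φ hφ => by
        rw [BrauerFeit.Good.contr_eq_zero hT hψ hm hφ, zero_mul]
  rw [← second_main hu C hC hχ₀ hχ hs]
  calc ∑ ψ ∈ corr v C χ₀, (mult C χ ψ : ℂ) * ψ (z * s)
      = ∑ ψ ∈ irr C, (mult C χ ψ : ℂ) * ((ψ 1)⁻¹ * ψ z) *
          (if ψ ∈ corr v C χ₀ then ψ s else 0) := by
        simp only [mul_ite, mul_zero]
        rw [← sum_filter, filter_mem_eq_inter, inter_eq_right.2 hT.sub]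
        exact sum_congr rfl fun ψ hψ => by rw [irr_central C hC (hT.sub hψ)]; ring
    _ = ∑ ψ ∈ irr C, ∑ c ∈ univ.filter (fun c : C => Reg p c),
          ((Nat.card C : ℂ)⁻¹ * ∑ φ ∈ corr v C χ₀, φ s * φ c⁻¹) *
            ((mult C χ ψ : ℂ) * ψ (z * c)) := sum_congr rfl fun ψ hψ => by
        rw [← hproj ψ hψ, mul_sum]
        exact sum_congr rfl fun c _ => by rw [irr_central C hC hψ]; ring
    _ = _ := by
        rw [sum_comm]
        refine sum_congr rfl fun c _ => ?_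
        rw [← mul_sum, ← res_eq C hχ (z * c)]
        rfl

omit hu hC

/-- Uniqueness of the decomposition. -/
theorem decomp_unique {a w a' w' : G} (ha : PEl p a) (hw : Reg p w) (haw : Commute a w)
    (ha' : PEl p a') (hw' : Reg p w') (haw' : Commute a' w') (h : a * w = a' * w') :
    a = a' ∧ w = w' := by
  obtain ⟨l, hl, hG⟩ := BrauerFeit.split_natCast (p := p) (Nat.card_pos (α := G)).ne'
  set e := (Nat.card G).factorization p
  obtain ⟨N, hN1, hN2⟩ :=
    Nat.chineseRemainder ((hp.out.coprime_iff_not_dvd.2 hl).pow_left e) 0 1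
  have h1 : ∀ x : G, PEl p x → x ^ N = 1 := fun x ⟨k, hk⟩ => by
    have hx : x ^ p ^ e = 1 := orderOf_dvd_iff_pow_eq_one.1 <| Nat.Coprime.dvd_of_dvd_mul_right
      (((hp.out.coprime_iff_not_dvd.2 hl).pow_left k).coprime_dvd_left
        (orderOf_dvd_of_pow_eq_one hk)) (hG ▸ orderOf_dvd_natCard x)
    obtain ⟨q, hq⟩ := Nat.modEq_zero_iff_dvd.1 hN1
    rw [hq, pow_mul, hx, one_pow]
  have h2 : ∀ x : G, Reg p x → x ^ N = x := fun x hx => by
    have hd : orderOf x ∣ l := ((hp.out.coprime_iff_not_dvd.2 hx).symm.pow_right e)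
      |>.dvd_of_dvd_mul_left (hG ▸ orderOf_dvd_natCard x)
    nth_rw 2 [← pow_one x]
    exact pow_eq_pow_iff_modEq.2 (hN2.of_dvd hd)
  have hww : w = w' := by
    have := congrArg (· ^ N) h
    simpa only [haw.mul_pow, haw'.mul_pow, h1 a ha, h1 a' ha', h2 w hw, h2 w' hw', one_mul]
      using this
  subst hww
  exact ⟨mul_right_cancel h, rfl⟩

/-- **Orthogonality of `p`-sections within a block.** -/
theorem section_orth {χ₀ : G → ℂ} (hχ₀ : χ₀ ∈ irr G) {a w a' w' : G} (ha : PEl p a)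
    (hw : Reg p w) (haw : Commute a w) (ha' : PEl p a') (hw' : Reg p w') (haw' : Commute a' w')
    (hn : ¬ IsConj a a') :
    ∑ χ ∈ blk v χ₀, χ (a * w) * χ (a' * w')⁻¹ = 0 := by
  set C := Subgroup.centralizer ({a} : Set G)
  have hC : ∀ g, g ∈ C ↔ g * a = a * g := fun g => Subgroup.mem_centralizer_singleton_iff
  set s : C := ⟨w, (hC w).2 haw.symm.eq⟩
  have hzero : ∀ c ∈ univ.filter (fun c : C => Reg p c),
      ∑ χ ∈ irr G, χ (a * c) * χ (a' * w')⁻¹ = 0 := fun c hc => by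
    rw [column_orthogonality, if_neg fun hconj => hn ?_]
    obtain ⟨g, hg⟩ := isConj_iff.1 hconj
    have hca : Commute a (c : G) := ((hC c).1 c.2).symm
    have hgw : Commute (g * a' * g⁻¹) (g * w' * g⁻¹) := by
      show _ = _
      rw [show g * a' * g⁻¹ * (g * w' * g⁻¹) = g * (a' * w') * g⁻¹ by group, haw'.eq]
      group
    obtain ⟨h1, -⟩ := decomp_unique (p := p) (pEl_conj.2 ha') (reg_conj_iff.2 hw') hgw ha
      (reg_coe.2 (mem_filter.1 hc).2) hca (by rw [← hg]; group)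
    exact (isConj_iff.2 ⟨g, h1⟩).symm
  calc ∑ χ ∈ blk v χ₀, χ (a * w) * χ (a' * w')⁻¹
      = ∑ χ ∈ irr G, (if χ ∈ blk v χ₀ then χ (a * s) else 0) * χ (a' * w')⁻¹ := by
        simp only [ite_mul, zero_mul]
        rw [← sum_filter, filter_mem_eq_inter, inter_eq_right.2 (blk_subset v χ₀)]
    _ = ∑ c ∈ univ.filter (fun c : C => Reg p c),
          ((Nat.card C : ℂ)⁻¹ * ∑ φ ∈ corr v C χ₀, φ s * φ c⁻¹) *
            ∑ χ ∈ irr G, χ (a * c) * χ (a' * w')⁻¹ := by
        rw [sum_congr rfl fun χ hχ => by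
          rw [eq_regular_sum ha C hC hχ₀ hχ (s := s) (reg_coe.1 (show Reg p (s : G) from hw)),
            sum_mul], sum_comm]
        exact sum_congr rfl fun c _ => by
          rw [mul_sum (f := fun χ : G → ℂ => χ (a * c) * χ (a' * w')⁻¹)]
          exact sum_congr rfl fun χ _ => by ring
    _ = 0 := sum_eq_zero fun c hc => by rw [hzero c hc, mul_zero]

/-- **Vanishing outside the defect group.** -/
theorem vanish_outside_defect {χ₀ : G → ℂ} (hχ₀ : χ₀ ∈ irr G) {D : Subgroup G}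
    (hD : DefectGroups.IsDefect p D (red v χ₀)) {a w : G} (ha : PEl p a) (hw : Reg p w)
    (haw : Commute a w) (hn : ∀ c : G, c * a * c⁻¹ ∉ D) {χ : G → ℂ} (hχ : χ ∈ blk v χ₀) :
    χ (a * w) = 0 := by
  set C := Subgroup.centralizer ({a} : Set G)
  have hC : ∀ g, g ∈ C ↔ g * a = a * g := fun g => Subgroup.mem_centralizer_singleton_iff
  set s : C := ⟨w, (hC w).2 haw.symm.eq⟩
  have h := second_main (v := v) ha C hC hχ₀ (blk_subset v χ₀ hχ) (s := s)
    (reg_coe.1 (show Reg p (s : G) from hw))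
  rw [if_pos hχ] at h
  rw [← h]
  refine sum_eq_zero fun ψ hψ => absurd (lam_aS_of_mem C hχ₀ hψ) ?_
  have h0 : ∀ c : C, v.r (aS (blk v χ₀) c) = 0 := fun c => by
    by_contra hne
    obtain ⟨d, hd⟩ := hD.2.1.2 c (by rwa [red, coeff_toAlg]) _ (isPGroup_zpowers ha)
      ((mem_centralizer_zpowers C hC c).2 c.2)
    exact hn d (hd a (Subgroup.mem_zpowers a))
  rw [lam, BrauerFeit.r_omega_eq_zero (f := resC C (aS (blk v χ₀)))
    (isCen_resC (isCen_aS_blk v)) (fun c => h0 c) (mem_filter.1 hψ).1]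
  exact zero_ne_one

/-- **One block** when a normal `p`-subgroup contains its centraliser. -/
theorem blk_eq_irr {P : Subgroup G} [P.Normal] (hP : IsPGroup p P)
    (hCP : Subgroup.centralizer (P : Set G) ≤ P) {χ : G → ℂ} (hχ : χ ∈ irr G) :
    blk v χ = irr G := by
  refine subset_antisymm (blk_subset v χ) fun ψ hψ => ?_
  have h : ∀ φ ∈ irr G, red v φ = 1 := fun φ hφ => by
    have hb := BrauerFeit.isBlock_red (v := v) hφ
    exact (DefectGroups.block_eq_one hP hCP hb.1 hb.2.1).resolve_left hb.2.2.1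
  rw [BrauerFeit.red_injective hχ ((h χ hχ).trans (h ψ hψ).symm)]
  exact mem_blk_self hψ

end FA.SecondMainTheorem

end
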